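import Fermat.Agent.S37.HeckeDiv
import Fermat.Agent.GAL.KVGalois

/-!
# S15 / H / Conc1 : `T_ℓ` on `J₀(N)` commutes with the Galois action
-/

set_option autoImplicit false
set_option linter.unusedSectionVars false
set_option linter.style.haveILetI false

namespace Fermat.Agent.S15.H

open AlgebraicCurve ModularCurve Fermat.Agent.GAL Fermat.Agent.Lib.RR Fermat.Agent.S24
  Fermat.Agent.GAL.Hecke Fermat.Agent.S37

section Along

variable {K F F' : Type*} [Field K] [IsAlgClosed K] [CharZero K] [Field F] [Field F'] [Algebra K F]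
  [Algebra K F'] [Lib.RR.IsFF K F] [Lib.RR.IsFF K F']

theorem c1_inertiaDegAlong_eq_one (φ : F →ₐ[K] F') (hφ : φ.toRingHom.IsIntegral)
    (hfin : FiniteAlong K φ) (w : Place K F') : w.inertiaDegAlong φ hφ = 1 := by
  letI := algebraAlong φ
  haveI := isScalarTower_along φ
  haveI : Module.Finite F F' := hfin
  haveI : CharZero F := charZero_of_injective_algebraMap (algebraMap K F).injective
  haveI : Algebra.IsSeparable F F' := Algebra.IsAlgebraic.isSeparable_of_perfectField
  exact S37.inertiaDeg_eq_one w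

theorem c1_restrictAlong_smul (φ : F →ₐ[K] F') (hφ : φ.toRingHom.IsIntegral)
    (g : SemilinearAut K F) (g' : SemilinearAut K F') (h : ∀ f : F, φ (g • f) = g' • φ f)
    (w : Place K F') : (g' • w).restrictAlong φ hφ = g • w.restrictAlong φ hφ := by
  have h' : ∀ f : F, φ (g⁻¹ • f) = g'⁻¹ • φ f := by
    intro f
    have := h (g⁻¹ • f)
    rw [smul_inv_smul] at this
    rw [this, inv_smul_smul]
  have := AlongB_restrictAlong_inv_smul φ hφ g⁻¹ g'⁻¹ h' w
  rwa [inv_inv, inv_inv] at this

/-- Compatibility of push-forward with semilinear automorphisms. -/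
theorem c1_pushforwardAlong_smul (φ : F →ₐ[K] F') (hφ : φ.toRingHom.IsIntegral)
    (hfin : FiniteAlong K φ)
    (g : SemilinearAut K F) (g' : SemilinearAut K F') (h : ∀ f : F, φ (g • f) = g' • φ f)
    (D : Divisor K F') :
    Divisor.pushforwardAlong φ hφ (g' • D) = g • Divisor.pushforwardAlong φ hφ D := by
  classical
  induction D using Finsupp.induction_linear with
  | zero => simp
  | add D E hD hE => rw [smul_add, map_add, map_add, smul_add, hD, hE]
  | single w n =>
    rw [SemilinearAut.divisor_smul_def, Finsupp.mapDomain_single, Divisor.pushforwardAlong_single,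
      Divisor.pushforwardAlong_single, SemilinearAut.divisor_smul_def, Finsupp.mapDomain_single,
      c1_restrictAlong_smul φ hφ g g' h, c1_inertiaDegAlong_eq_one φ hφ hfin,
      c1_inertiaDegAlong_eq_one φ hφ hfin]

end Along

variable (N ℓ : ℕ) [NeZero N] [NeZero ℓ]

theorem c1_heckeDiv_smul (σ : Kbar ≃ₐ[ℚ] Kbar) (D : Divisor Kbar (FN N)) :
    heckeDiv N ℓ (arithmeticGalois (modularFunctionFieldFull N) σ • D)
      = arithmeticGalois (modularFunctionFieldFull N) σ • heckeDiv N ℓ D := by
  rw [heckeDiv_apply, heckeDiv_apply,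
    pullbackAlong_smul (heckeBetaBar Kbar N ℓ) (integral_beta N ℓ)
      (arithmeticGalois (modularFunctionFieldFull N) σ)
      (arithmeticGalois (modularFunctionFieldFull (N * ℓ)) σ)
      (fun f => heckeBetaBar_arithmeticRingAut N ℓ σ f),
    c1_pushforwardAlong_smul (heckeAlphaBar Kbar N ℓ) (integral_alpha N ℓ) (finiteAlong_alpha N ℓ)
      (arithmeticGalois (modularFunctionFieldFull N) σ)
      (arithmeticGalois (modularFunctionFieldFull (N * ℓ)) σ)
      (fun f => heckeAlphaBar_arithmeticRingAut N ℓ σ f)]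

theorem c1_heckeOperatorAlong_smul (σ : Kbar ≃ₐ[ℚ] Kbar) (x : JZero N) :
    heckeOperatorAlong Kbar N ℓ (σ • x) = σ • heckeOperatorAlong Kbar N ℓ x := by
  obtain ⟨D, rfl⟩ := Pic0.mk_surjective x
  rw [galois_smul_pic0_def, galois_smul_pic0_def, SemilinearAut.pic0_smul_mk,
    heckeOperatorAlong_mk, heckeOperatorAlong_mk, SemilinearAut.pic0_smul_mk]
  congr 1
  apply Subtype.ext
  exact c1_heckeDiv_smul N ℓ σ D

/-- **(1) `T_ℓ` commutes with `G_ℚ`.** -/
theorem T_gal (l : Nat.Primes) (σ : Kbar ≃ₐ[ℚ] Kbar) (x : JZero N) :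
    heckeOperatorBar N l (σ • x) = σ • heckeOperatorBar N l x := by
  haveI : NeZero (l : ℕ) := ⟨l.2.ne_zero⟩
  exact c1_heckeOperatorAlong_smul N l σ x

end Fermat.Agent.S15.H
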