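import Fermat.Agent.S15.H.Conc1.Dict
import Fermat.Agent.S15.H.Conc1.Gal
import Fermat.Agent.DR.S34.Final
import Fermat.Agent.GAL.Tors.HeckeInput
import Fermat.Agent.Lib.Frobenius
import Fermat.Agent.S13.Minkowski

/-!
# S15 / H / Conc1 : Hecke operators on the torsion of `J₀(N)`
-/

set_option autoImplicit false
set_option linter.unusedSectionVars false
set_option linter.style.haveILetI false

namespace Fermat.Agent.S15.H

open AlgebraicCurve ModularCurve Fermat.Agent.GAL Fermat.Agent.Lib.RR Fermat.Agent.S24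
  Fermat.Agent.GAL.Hecke Fermat.Agent.S37 Fermat.Agent.GAL.Tors

variable (N : ℕ) [NeZero N]

/-- the dictionary at level `N`. -/
noncomputable def kvJ (m : ℕ) (hm : m ≠ 0) : KV Kbar (FN N) m →+ JZero N := kvPic m hm

theorem kvJ_injective (m : ℕ) (hm : m ≠ 0) : Function.Injective (kvJ N m hm) :=
  kvPic_injective m hm

theorem nsmul_kvJ (m : ℕ) (hm : m ≠ 0) (x : KV Kbar (FN N) m) : m • kvJ N m hm x = 0 :=
  nsmul_kvPic m hm x

theorem exists_kvJ_eq (m : ℕ) (hm : m ≠ 0) (x : JZero N) (hx : m • x = 0) :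
    ∃ y, kvJ N m hm y = x := exists_kvPic_eq m hm x hx

theorem kvJ_smul (m : ℕ) (hm : m ≠ 0) (σ : Kbar ≃ₐ[ℚ] Kbar) (x : KV Kbar (FN N) m) :
    kvJ N m hm (σ • x) = σ • kvJ N m hm x :=
  kvPic_smul m hm _ x

theorem kvJ_heckeT (ℓ : ℕ) [NeZero ℓ] (m : ℕ) (hm : m ≠ 0) (x : KV Kbar (FN N) m) :
    kvJ N m hm (heckeT Kbar N ℓ m x) = heckeOperatorAlong Kbar N ℓ (kvJ N m hm x) := by
  obtain ⟨u, rfl⟩ := KV.mk_surjective x
  have hP := heckeNormPreserves N ℓ m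
  rw [heckeT_mk hP]
  show kvPic m hm (KV.mk _) = heckeOperatorAlong Kbar N ℓ (kvPic m hm (KV.mk u))
  rw [kvPic_mk, kvPic_mk, heckeOperatorAlong_mk]
  congr 1
  apply Subtype.ext
  show divM m (heckeNorm Kbar N ℓ ((u : (FN N)ˣ) : FN N)) = heckeDiv N ℓ (divM m ((u : (FN N)ˣ) : FN N))
  have hmZ : (m : ℤ) ≠ 0 := by exact_mod_cast hm
  have h1 : (m : ℤ) • divM (K := Kbar) m (heckeNorm Kbar N ℓ ((u : (FN N)ˣ) : FN N))
      = (m : ℤ) • heckeDiv N ℓ (divM m ((u : (FN N)ˣ) : FN N)) := by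
    have hP' : ∀ P : Place Kbar (FN N),
        (m : ℤ) ∣ P.ord (heckeNorm Kbar N ℓ ((u : (FN N)ˣ) : FN N)) := hP u u.2
    rw [smul_divM m _ hP', ← map_zsmul, smul_divM m _ u.2]
    exact (divOf_heckeNorm N ℓ _ (Units.ne_zero _)).2
  ext P
  have h2 := DFunLike.congr_fun h1 P
  rw [Finsupp.smul_apply, Finsupp.smul_apply, smul_eq_mul, smul_eq_mul] at h2
  exact mul_left_cancel₀ hmZ h2

/-- **(4)** the torsion is finite. -/
theorem finite_tors (m : ℕ) (hm : m ≠ 0) : Finite {x : JZero N // m • x = 0} := by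
  obtain ⟨D⟩ := nonempty_torsDatum' N
  haveI : NeZero m := ⟨hm⟩
  haveI : Finite (KV Kbar (FN N) m) := Finite.of_equiv _ (D.e m).toEquiv
  refine Finite.of_surjective
    (fun y : KV Kbar (FN N) m => (⟨kvJ N m hm y, nsmul_kvJ N m hm y⟩ : {x : JZero N // m • x = 0})) ?_
  rintro ⟨x, hx⟩
  obtain ⟨y, hy⟩ := exists_kvJ_eq N m hm x hx
  exact ⟨y, Subtype.ext hy⟩

/-- **(2)** the Hecke operators commute on torsion points. -/
theorem T_comm_tors (l l' : Nat.Primes) (hl : ¬ (l : ℕ) ∣ N) (hl' : ¬ (l' : ℕ) ∣ N) (m : ℕ)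
    (hm : m ≠ 0) (x : JZero N) (hx : m • x = 0) :
    heckeOperatorBar N l (heckeOperatorBar N l' x) = heckeOperatorBar N l' (heckeOperatorBar N l x) := by
  obtain ⟨D⟩ := nonempty_torsDatum' N
  haveI : NeZero m := ⟨hm⟩
  haveI : NeZero (l : ℕ) := ⟨l.2.ne_zero⟩
  haveI : NeZero (l' : ℕ) := ⟨l'.2.ne_zero⟩
  obtain ⟨y, rfl⟩ := exists_kvJ_eq N m hm x hx
  obtain ⟨v, rfl⟩ := (D.e m).surjective y
  show heckeOperatorAlong Kbar N l (heckeOperatorAlong Kbar N l' _)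
    = heckeOperatorAlong Kbar N l' (heckeOperatorAlong Kbar N l _)
  rw [← kvJ_heckeT, ← kvJ_heckeT, ← kvJ_heckeT, ← kvJ_heckeT, ← D.e_T m l' l'.2 hl',
    ← D.e_T m l l.2 hl, ← D.e_T m l l.2 hl, ← D.e_T m l' l'.2 hl', Matrix.mulVec_mulVec,
    Matrix.mulVec_mulVec, ← Matrix.map_mul, ← Matrix.map_mul, D.T_comm]

/-- **(3)** Eichler-Shimura on `r`-power torsion. -/
theorem ES_tors (r : ℕ) (k : ℕ) (hr : r ≠ 0) (l : Nat.Primes) (hl : ¬ (l : ℕ) ∣ N * r)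
    (A : ValuationSubring Kbar) (hA : A.LiesOverPrime l) (σ : Kbar ≃ₐ[ℚ] Kbar)
    (hσ : A.IsFrobeniusAt σ l) (x : JZero N) (hx : r ^ k • x = 0) :
    σ • σ • x - heckeOperatorBar N l (σ • x) + (l : ℕ) • x = 0 := by
  haveI : NeZero (l : ℕ) := ⟨l.2.ne_zero⟩
  have hm : r ^ k ≠ 0 := pow_ne_zero k hr
  obtain ⟨y, rfl⟩ := exists_kvJ_eq N (r ^ k) hm x hx
  have h := Hecke.eichlerShimura N (r ^ k) l (Nat.pos_of_ne_zero hm) l.2
    (fun h => hl (h.mul_right r)) A hA (DR.S34.injAt_all N r k l l.2 hl A hA) σ hσ y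
  have h2 := congrArg (kvJ N (r ^ k) hm) h
  rw [map_zero, map_add, map_sub, map_nsmul, kvJ_heckeT, kvJ_smul, kvJ_smul] at h2
  exact h2

/-- general torsion version of **(3)**. -/
theorem ES_tors' (m : ℕ) (hm : m ≠ 0) (l : Nat.Primes) (hl : ¬ (l : ℕ) ∣ N * m)
    (A : ValuationSubring Kbar) (hA : A.LiesOverPrime l) (σ : Kbar ≃ₐ[ℚ] Kbar)
    (hσ : A.IsFrobeniusAt σ l) (x : JZero N) (hx : m • x = 0) :
    σ • σ • x - heckeOperatorBar N l (σ • x) + (l : ℕ) • x = 0 :=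
  ES_tors N m 1 hm l hl A hA σ hσ x (by rwa [pow_one])

/-- `T_ℓ = Frob + ℓ Frob⁻¹` on torsion prime to `ℓ`. -/
theorem T_eq_frob (m : ℕ) (hm : m ≠ 0) (l : Nat.Primes) (hl : ¬ (l : ℕ) ∣ N * m)
    (A : ValuationSubring Kbar) (hA : A.LiesOverPrime l) (σ : Kbar ≃ₐ[ℚ] Kbar)
    (hσ : A.IsFrobeniusAt σ l) (x : JZero N) (hx : m • x = 0) :
    heckeOperatorBar N l x = σ • x + (l : ℕ) • σ⁻¹ • x := by
  have hx' : m • σ⁻¹ • x = 0 := by
    have := map_nsmul (DistribSMul.toAddMonoidHom (JZero N) σ⁻¹) m x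
    simp only [DistribSMul.toAddMonoidHom_apply] at this
    rw [← this, hx, smul_zero]
  have h := ES_tors' N m hm l hl A hA σ hσ (σ⁻¹ • x) hx'
  rw [smul_inv_smul] at h
  have h2 : σ • x + (l : ℕ) • σ⁻¹ • x - heckeOperatorBar N l x = 0 := by
    rw [← h]; abel
  exact (sub_eq_zero.1 h2).symm

/-- **(5)** rational torsion is Eisenstein. -/
theorem eisenstein_of_fixed (x : JZero N) (hfix : ∀ σ : Kbar ≃ₐ[ℚ] Kbar, σ • x = x) (m : ℕ)
    (hm : m ≠ 0) (hx : m • x = 0) (l : Nat.Primes) (hl : ¬ (l : ℕ) ∣ N * m) :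
    heckeOperatorBar N l x = (1 + (l : ℕ)) • x := by
  obtain ⟨A, hA⟩ := Fermat.Agent.S13.exists_liesOverPrime_Qbar l.2
  haveI : IsGalois ℚ (AlgebraicClosure ℚ) := Fermat.Agent.Lib.Frobenius.isGalois_algebraicClosure _
  obtain ⟨σ, hσ⟩ := Fermat.Agent.Lib.Frobenius.exists_isFrobeniusAt A l.2 hA
  rw [T_eq_frob N m hm l hl A hA σ hσ x hx, hfix, hfix, add_smul, one_smul]

end Fermat.Agent.S15.H
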