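import Fermat.Agent.S15.H.Conc1.HkInst
import Fermat.Agent.S15.H.App
import Fermat.Agent.S15.Contracts
import Fermat.Agent.Lib.FrobDensity.GALInterface

/-!
# S15 / H : `CoreAll` from Cor D', the ambient data `Amb X (JZero p)` and rationality of the cusp
-/

set_option autoImplicit false
set_option linter.unusedSectionVars false

namespace Fermat.Agent.S15.H.C1

open AlgebraicCurve ModularCurve Fermat.Agent.S15.Sel

/-- **What remains to be instantiated**: the ambient data for `J₀(p)`. -/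
def AmbStmt : Prop :=
  ∀ (p r : ℕ) [NeZero p], p.Prime → 5 ≤ p → r.Prime → r ≠ p →
    ∃ X : D.Ctx, X.r = r ∧ X.N = p ∧ Nonempty (Amb X (JZero p))

/-- the cuspidal class is rational. -/
def CuspFixed : Prop := ∀ (p : ℕ) [NeZero p], p.Prime → ∀ σ : GQ, σ • cusp p = cusp p

theorem hkInst_alg_le (X : D.Ctx) [NeZero X.N] (S S' : Finset ℕ) (hr : X.r ∈ S') (hN : X.N ∈ S')
    (hS : S ⊆ S') : (hkInst X S' hr hN).alg ≤ TTS X.N S := by
  refine Algebra.adjoin_mono ?_
  rintro t ⟨q, hq, rfl⟩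
  exact ⟨q, fun h => hq (h ▸ hN), fun h => hq (hS h), rfl⟩

theorem coreAll_of (hD : CorDStmt.{0}) (hA : AmbStmt) (hc : CuspFixed) : CoreAll := by
  intro p _ r S hadm
  have hp5 : 5 ≤ p := by
    have hp := hadm.1
    have h2 := hp.two_le
    have hn := hadm.2.1
    by_contra hlt
    have : p = 2 ∨ p = 3 ∨ p = 4 := by omega
    rcases this with h | h | h
    · exact hn (by simp [h])
    · exact hn (by simp [h])
    · rw [h] at hp; exact absurd hp (by norm_num)
  obtain ⟨X, rfl, rfl, ⟨A⟩⟩ := hA p r hadm.1 hp5 hadm.2.2.1 hadm.2.2.2.2.2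
  classical
  set S' : Finset ℕ := S ∪ {X.r, X.N} ∪ (addOrderOf (cusp X.N)).primeFactors with hS'
  have hr : X.r ∈ S' := by simp [hS']
  have hN : X.N ∈ S' := by simp [hS']
  have hSS' : S ⊆ S' := fun x hx => by simp [hS', hx]
  obtain ⟨C, hC, h⟩ := core_abs hD Fermat.Agent.Lib.FrobDensity.gal_frobeniusDensity A
    (hkInst X S' hr hN)
  refine ⟨C, hC, fun k => ?_⟩
  obtain ⟨ε, hε, hfix, hk⟩ := h k
  refine ⟨ε, hkInst_alg_le X S S' hr hN hSS' hε, ⟨0, ?_⟩, hk⟩
  rw [mul_zero, sub_zero, one_smul]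
  refine hfix _ fun q => hkInst_η_eq_zero X S' hr hN (cusp X.N) (hc X.N X.hN)
    (addOrderOf (cusp X.N)) hadm.2.2.2.2.1 (addOrderOf_nsmul_eq_zero _) ?_ q
  intro q hq hqd
  have : q ∈ (addOrderOf (cusp X.N)).primeFactors :=
    Nat.mem_primeFactors.2 ⟨hq, hqd, hadm.2.2.2.2.1⟩
  simp [hS', this]

end Fermat.Agent.S15.H.C1
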