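import Fermat.Agent.GAL.Model
import Fermat.Agent.Lib.RR.Basic
import Fermat.Agent.GAL.RED.CurveBasic

/-!
# S15 / H / Conc1 : the PUBLIC dictionary `KV K F m ≃ Pic⁰(F)[m]`, `u ↦ [div(u) / m]`

(public version of `S32/KVPic.lean`, plus surjectivity onto the `m`-torsion).
-/

set_option autoImplicit false

namespace Fermat.Agent.S15.H

open AlgebraicCurve Fermat.Agent.GAL Fermat.Agent.Lib.RR

variable {K F : Type*} [Field K] [Field F] [Algebra K F]

/-- `div(u) / m`. -/
noncomputable def divM [HasPrincipalDivisors K F] (m : ℕ) (u : F) : Divisor K F :=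
  (divOf (K := K) u).mapRange (· / (m : ℤ)) (by simp)

theorem divM_apply [HasPrincipalDivisors K F] (m : ℕ) (u : F) (v : Place K F) :
    divM (K := K) m u v = v.ord u / (m : ℤ) := by
  simp [divM]

theorem smul_divM [HasPrincipalDivisors K F] (m : ℕ) (u : F)
    (hu : ∀ P : Place K F, (m : ℤ) ∣ P.ord u) :
    (m : ℤ) • divM (K := K) m u = divOf u := by
  ext v
  rw [Finsupp.smul_apply, divM_apply, divOf_apply, smul_eq_mul]
  exact Int.mul_ediv_cancel' (hu v)

theorem degree_divM [HasPrincipalDivisors K F] (m : ℕ) (hm : m ≠ 0) (u : F)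
    (hu : ∀ P : Place K F, (m : ℤ) ∣ P.ord u) :
    Divisor.degree (divM (K := K) m u) = 0 := by
  have h := congrArg Divisor.degree (smul_divM (K := K) m u hu)
  rw [map_zsmul, degree_divOf, smul_eq_mul] at h
  rcases mul_eq_zero.mp h with h | h
  · exact absurd (by exact_mod_cast h) hm
  · exact h

theorem pic0_mk_eq_zero_iff (D : Divisor.degZero (K := K) (F := F)) :
    Pic0.mk D = 0 ↔ Divisor.IsPrincipal (D : Divisor K F) := by
  unfold Pic0.mk
  rw [QuotientAddGroup.eq_zero_iff, AddSubgroup.mem_addSubgroupOf]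
  rfl

/-- the map on Kummer units. -/
noncomputable def kvPicUnit [HasPrincipalDivisors K F] (m : ℕ) (hm : m ≠ 0) :
    kummerUnits K F m →* Multiplicative (Pic0 K F) where
  toFun u := Multiplicative.ofAdd (Pic0.mk ⟨divM (K := K) m ((u : Fˣ) : F),
    degree_divM m hm _ u.2⟩)
  map_one' := by
    rw [← ofAdd_zero]
    congr 1
    rw [pic0_mk_eq_zero_iff]
    refine ⟨1, one_ne_zero, fun v => ?_⟩
    simp [divM_apply]
  map_mul' u w := by
    rw [← ofAdd_add, ← Pic0.mk_add]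
    congr 2
    ext v
    simp only [AddSubgroup.coe_add, Finsupp.add_apply, divM_apply, Subgroup.coe_mul,
      Units.val_mul]
    rw [v.ord_mul (Units.ne_zero _) (Units.ne_zero _)]
    exact Int.add_ediv_of_dvd_left (u.2 v)

theorem kvPicUnit_apply [HasPrincipalDivisors K F] (m : ℕ) (hm : m ≠ 0)
    (u : kummerUnits K F m) :
    kvPicUnit (K := K) (F := F) m hm u
      = Multiplicative.ofAdd (Pic0.mk ⟨divM (K := K) m ((u : Fˣ) : F),
          degree_divM m hm _ u.2⟩) := rfl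

theorem kvPicUnit_le [HasPrincipalDivisors K F] (m : ℕ) (hm : m ≠ 0) :
    kummerPowers K F m ≤ (kvPicUnit (K := K) (F := F) m hm).ker := by
  intro u hu
  rw [kummerPowers, Subgroup.mem_subgroupOf, MonoidHom.mem_range] at hu
  obtain ⟨y, hy⟩ := hu
  rw [MonoidHom.mem_ker, kvPicUnit_apply, ← ofAdd_zero]
  congr 1
  rw [pic0_mk_eq_zero_iff]
  refine ⟨(y : F), Units.ne_zero _, fun v => ?_⟩
  have hy' : ((u : Fˣ) : F) = (y : F) ^ m := by
    rw [← hy]; simp
  show divM (K := K) m ((u : Fˣ) : F) v = _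
  rw [divM_apply, hy', RED.ord_pow]
  exact Int.mul_ediv_cancel_left _ (by exact_mod_cast hm)

/-- **the dictionary** `KV K F m → Pic⁰ K F`, `u ↦ [div u / m]`. -/
noncomputable def kvPic [HasPrincipalDivisors K F] (m : ℕ) (hm : m ≠ 0) :
    KV K F m →+ Pic0 K F :=
  MonoidHom.toAdditiveLeft (QuotientGroup.lift (kummerPowers K F m)
    (kvPicUnit (K := K) (F := F) m hm) (kvPicUnit_le m hm))

theorem kvPic_mk [HasPrincipalDivisors K F] (m : ℕ) (hm : m ≠ 0)
    (u : kummerUnits K F m) :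
    kvPic (K := K) (F := F) m hm (KV.mk u)
      = Pic0.mk ⟨divM (K := K) m ((u : Fˣ) : F), degree_divM m hm _ u.2⟩ := rfl

theorem kvPic_injective [IsFF K F] [IsAlgClosed K] (m : ℕ) (hm : m ≠ 0) :
    Function.Injective (kvPic (K := K) (F := F) m hm) := by
  rw [injective_iff_map_eq_zero]
  intro x hx
  obtain ⟨u, rfl⟩ := KV.mk_surjective x
  rw [kvPic_mk, pic0_mk_eq_zero_iff] at hx
  obtain ⟨g, hg, hD⟩ := hx
  rw [KV.mk_eq_zero_iff]
  have hu0 : ((u : Fˣ) : F) ≠ 0 := Units.ne_zero _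
  have hord : ∀ P : Place K F, P.ord (((u : Fˣ) : F) / g ^ m) = 0 := by
    intro P
    have h1 : divM (K := K) m ((u : Fˣ) : F) P = P.ord g := hD P
    rw [divM_apply] at h1
    rw [RED.ord_div P hu0 (pow_ne_zero _ hg), RED.ord_pow, ← h1,
      Int.mul_ediv_cancel' (u.2 P), sub_self]
  obtain ⟨c, hc⟩ := RED.mem_range_of_ord_nonneg (f := ((u : Fˣ) : F) / g ^ m)
    (fun P => (hord P).ge)
  obtain ⟨d, hd⟩ := IsAlgClosed.exists_pow_nat_eq c (Nat.pos_of_ne_zero hm)
  have hfin : (algebraMap K F d * g) ^ m = ((u : Fˣ) : F) := by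
    rw [mul_pow, ← map_pow, hd, hc, div_mul_cancel₀ _ (pow_ne_zero _ hg)]
  have hne : algebraMap K F d * g ≠ 0 := by
    intro h0
    rw [h0, zero_pow hm] at hfin
    exact hu0 hfin.symm
  refine ⟨Units.mk0 _ hne, ?_⟩
  ext
  simpa using hfin

theorem nsmul_kvPic [HasPrincipalDivisors K F] (m : ℕ) (hm : m ≠ 0) (x : KV K F m) :
    m • kvPic (K := K) (F := F) m hm x = 0 := by
  rw [← map_nsmul, KV.nsmul_eq_zero, map_zero]

theorem kvPic_smul [HasPrincipalDivisors K F] (m : ℕ) (hm : m ≠ 0) (g : SemilinearAut K F)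
    (x : KV K F m) : kvPic (K := K) (F := F) m hm (g • x) = g • kvPic m hm x := by
  obtain ⟨u, rfl⟩ := KV.mk_surjective x
  rw [KV.semilinear_smul_mk, kvPic_mk, kvPic_mk, SemilinearAut.pic0_smul_mk]
  congr 1
  ext v
  show divM (K := K) m (g • ((u : Fˣ) : F)) v
    = (g • divM (K := K) m ((u : Fˣ) : F)) v
  rw [SemilinearAut.divisor_smul_apply, divM_apply, divM_apply]
  have h := SemilinearAut.ord_smul g (g⁻¹ • v) ((u : Fˣ) : F)
  rw [smul_inv_smul] at h
  rw [h]

/-- surjectivity onto the `m`-torsion.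
PROOF: `x = Pic0.mk D`; `m • x = 0` gives `u ≠ 0` with `ord_P u = m * D P` for all `P`
(`pic0_mk_eq_zero_iff` applied to `m • D`); so `u` is a Kummer unit and `divM m u = D`. -/
theorem exists_kvPic_eq [HasPrincipalDivisors K F] (m : ℕ) (hm : m ≠ 0) (x : Pic0 K F)
    (hx : m • x = 0) : ∃ y : KV K F m, kvPic (K := K) (F := F) m hm y = x := by
  obtain ⟨D, rfl⟩ := Pic0.mk_surjective x
  have h1 : m • Pic0.mk D = Pic0.mk (m • D) := rfl
  rw [h1, pic0_mk_eq_zero_iff] at hx
  obtain ⟨u, hu0, hu⟩ := hx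
  have hord : ∀ P : Place K F, P.ord u = (m : ℤ) * (D : Divisor K F) P := by
    intro P
    have h2 := hu P
    rw [← h2]
    simp
  have hmem : Units.mk0 u hu0 ∈ kummerUnits K F m := fun P => by
    rw [Units.val_mk0, hord P]
    exact dvd_mul_right _ _
  refine ⟨KV.mk ⟨Units.mk0 u hu0, hmem⟩, ?_⟩
  rw [kvPic_mk]
  congr 1
  apply Subtype.ext
  ext P
  show divM (K := K) m u P = (D : Divisor K F) P
  rw [divM_apply, hord P]
  exact Int.mul_ediv_cancel_left _ (by exact_mod_cast hm)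

end Fermat.Agent.S15.H
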