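import Fermat.Agent.S15.H.Conc1.Tors
import Fermat.Agent.S15.H.Amb

/-!
# S15 / H / Conc1 : the instance `Hk X (JZero X.N) S` of the abstract Hecke data
-/

set_option autoImplicit false
set_option linter.unusedSectionVars false

namespace Fermat.Agent.S15.H.C1

open AlgebraicCurve ModularCurve Fermat.Agent.S15.Sel

/-- the Hecke operators on `J₀(N)` as abstract Hecke data away from `S ∋ r, N`. -/
noncomputable def hkInst (X : D.Ctx) [NeZero X.N] (S : Finset ℕ) (hr : X.r ∈ S) (hN : X.N ∈ S) :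
    Hk X (JZero X.N) S where
  hr := hr
  hN := hN
  T := heckeOperatorBar X.N
  gal := fun q σ x => T_gal X.N q σ x
  comm := fun q q' hq hq' m hm x hx =>
    T_comm_tors X.N q q'
      (fun h => hq (((Nat.prime_dvd_prime_iff_eq q.2 X.hN).1 h) ▸ hN))
      (fun h => hq' (((Nat.prime_dvd_prime_iff_eq q'.2 X.hN).1 h) ▸ hN)) m hm x hx
  es := fun q hq A hA σ hσ k x hx =>
    ES_tors X.N X.r k X.hr.ne_zero q
      (fun h => by
        rcases (Nat.Prime.dvd_mul q.2).1 h with h | h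
        · exact hq (((Nat.prime_dvd_prime_iff_eq q.2 X.hN).1 h) ▸ hN)
        · exact hq (((Nat.prime_dvd_prime_iff_eq q.2 X.hr).1 h) ▸ hr))
      A hA σ hσ x hx

@[simp] theorem hkInst_T (X : D.Ctx) [NeZero X.N] (S : Finset ℕ) (hr : X.r ∈ S) (hN : X.N ∈ S) :
    (hkInst X S hr hN).T = heckeOperatorBar X.N := rfl

/-- rational torsion is killed by all `η_q`, `q ∉ S`, as soon as `S` contains the primes dividing its
order. -/
theorem hkInst_η_eq_zero (X : D.Ctx) [NeZero X.N] (S : Finset ℕ) (hr : X.r ∈ S) (hN : X.N ∈ S)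
    (x : JZero X.N) (hfix : ∀ σ : GQ, σ • x = x) (m : ℕ) (hm : m ≠ 0) (hx : m • x = 0)
    (hS : ∀ q : ℕ, q.Prime → q ∣ m → q ∈ S) (q : {q : Nat.Primes // (q : ℕ) ∉ S}) :
    (hkInst X S hr hN).η q x = 0 := by
  rw [Hk.η_apply, hkInst_T, eisenstein_of_fixed X.N x hfix m hm hx q.1 ?_, sub_self]
  intro h
  rcases (Nat.Prime.dvd_mul q.1.2).1 h with h | h
  · exact q.2 (((Nat.prime_dvd_prime_iff_eq q.1.2 X.hN).1 h) ▸ hN)
  · exact q.2 (hS _ q.1.2 h)

end Fermat.Agent.S15.H.C1
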